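import Mathlib

set_option autoImplicit false

namespace Fermat.Agent.S57Lib

open RingTheory.Sequence IsLocalRing CategoryTheory Abelian

universe u

theorem exists_isRegular_quotSMulTop {A : Type u} [CommRing A] [IsLocalRing A] [IsNoetherianRing A]
    {N : Type u} [AddCommGroup N] [Module A N] [Module.Finite A N] [Nontrivial N]
    {n : ℕ} (rs : List A) (hlen : rs.length = n + 1) (hmem : ∀ r ∈ rs, r ∈ maximalIdeal A)
    (hreg : IsRegular N rs) {x : A} (hx : x ∈ maximalIdeal A) (hxreg : IsSMulRegular N x) :
    ∃ rs' : List A, rs'.length = n ∧ (∀ r ∈ rs', r ∈ maximalIdeal A) ∧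
      IsRegular (QuotSMulTop x N) rs' := by
  have smul_lt : maximalIdeal A • (⊤ : Submodule A N) < ⊤ :=
    (Submodule.top_ne_ideal_smul_of_le_jacobson_annihilator
      (maximalIdeal_le_jacobson _)).symm.lt_top
  have h1 := (ModuleCat.exists_isRegular_tfae (maximalIdeal A) (n+1) (ModuleCat.of A N)
    smul_lt).out 3 1
  have h2 := h1.1 ⟨rs, hlen, hmem, hreg⟩
  have h3 : ∀ i < n, Subsingleton (Ext (ModuleCat.of A (Shrink.{u} (A ⧸ maximalIdeal A)))
      (ModuleCat.of A (QuotSMulTop x N)) i) := by
    intro i hi
    have zero1 := AddCommGrpCat.isZero_of_iff_subsingleton.mpr (h2 i (by omega))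
    have zero2 := AddCommGrpCat.isZero_of_iff_subsingleton.mpr (h2 (i + 1) (by omega))
    exact AddCommGrpCat.subsingleton_of_isZero <| ShortComplex.Exact.isZero_of_both_zeros
        ((Ext.covariant_sequence_exact₃' _ (IsSMulRegular.smulShortComplex_shortExact (M := ModuleCat.of A N) hxreg)) i (i + 1) rfl)
        (zero1.eq_zero_of_src _) (zero2.eq_zero_of_tgt _)
  have := nontrivial_quotSMulTop_of_mem_maximalIdeal N hx
  have smul_lt' : maximalIdeal A • (⊤ : Submodule A (QuotSMulTop x N)) < ⊤ :=
    (Submodule.top_ne_ideal_smul_of_le_jacobson_annihilator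
      (maximalIdeal_le_jacobson _)).symm.lt_top
  exact ((ModuleCat.exists_isRegular_tfae (maximalIdeal A) n (ModuleCat.of A (QuotSMulTop x N))
    smul_lt').out 1 3).1 h3

theorem exists_erase_span {A : Type u} [CommRing A] [IsLocalRing A] [DecidableEq A] (s : Finset A)
    (hspan : Ideal.span (s : Set A) = maximalIdeal A) {x : A} (hx : x ∈ maximalIdeal A)
    (hx2 : x ∉ maximalIdeal A ^ 2) :
    ∃ i ∈ s, Ideal.span (insert x ((s.erase i : Finset A) : Set A)) = maximalIdeal A := by
  have hx' : x ∈ Ideal.span (s : Set A) := hspan ▸ hx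
  obtain ⟨c, -, hc⟩ := Submodule.mem_span_finset.1 hx'
  have hsm : ∀ j ∈ s, j ∈ maximalIdeal A := fun j hj => hspan ▸ Ideal.subset_span hj
  have hex : ∃ i ∈ s, IsUnit (c i) := by
    by_contra hcon
    push Not at hcon
    apply hx2
    rw [← hc, pow_two]
    exact Ideal.sum_mem _ fun j hj => Ideal.mul_mem_mul (hcon j hj) (hsm j hj)
  obtain ⟨i, hi, hu⟩ := hex
  refine ⟨i, hi, le_antisymm ?_ ?_⟩
  · rw [Ideal.span_le]
    rintro y (rfl | hy)
    · exact hx
    · exact hsm y (Finset.mem_of_mem_erase hy)
  · rw [← hspan, Ideal.span_le]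
    intro j hj
    by_cases hji : j = i
    · subst hji
      obtain ⟨u, hu⟩ := hu
      have h1 := Finset.add_sum_erase s (fun a => c a • a) hi
      rw [hc] at h1
      have h2 : j = ↑u⁻¹ * (x - ∑ a ∈ s.erase j, c a • a) := by
        rw [← h1]
        simp only [smul_eq_mul, add_sub_cancel_right]
        rw [← hu, ← mul_assoc, Units.inv_mul, one_mul]
      have h3 : ↑u⁻¹ * (x - ∑ a ∈ s.erase j, c a • a) ∈
          Ideal.span (insert x ((s.erase j : Finset A) : Set A)) := by
        apply Ideal.mul_mem_left
        apply Ideal.sub_mem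
        · exact Ideal.subset_span (Set.mem_insert _ _)
        · exact Ideal.sum_mem _ fun a ha => Ideal.mul_mem_left _ _
            (Ideal.subset_span (Set.mem_insert_of_mem _ ha))
      rwa [← h2] at h3
    · exact Ideal.subset_span (Set.mem_insert_of_mem _ (Finset.mem_erase.2 ⟨hji, hj⟩))

theorem free_of_isWeaklyRegular (n : ℕ) : ∀ (A : Type u) [CommRing A] [IsLocalRing A]
    [IsNoetherianRing A] (N : Type u) [AddCommGroup N] [Module A N] [Module.Finite A N]
    (s : Finset A) (_ : s.card ≤ n) (_ : Ideal.span (s : Set A) = maximalIdeal A)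
    (rs : List A) (_ : rs.length = n) (_ : ∀ r ∈ rs, r ∈ maximalIdeal A)
    (_ : IsWeaklyRegular N rs), Module.Free A N := by
  classical
  induction n with
  | zero =>
    intro A _ _ _ N _ _ _ s hs hspan rs _ _ _
    have hs0 : s = ∅ := Finset.card_eq_zero.1 (Nat.le_zero.1 hs)
    rw [hs0, Finset.coe_empty, Ideal.span_empty] at hspan
    have hF : IsField A := isField_iff_maximalIdeal_eq.2 hspan.symm
    let := hF.toField
    exact Module.Free.of_divisionRing A N
  | succ n ih =>
    intro A _ _ _ N _ _ _ s hs hspan rs hlen hmem hreg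
    rcases subsingleton_or_nontrivial N with hN | hN
    · exact Module.Free.of_subsingleton A N
    have hreg' : IsRegular N rs := IsRegular.of_isWeaklyRegular_of_mem_maximalIdeal N hmem hreg
    obtain ⟨a, rs', rfl⟩ : ∃ a rs', rs = a :: rs' := by
      cases rs with
      | nil => simp at hlen
      | cons a rs' => exact ⟨a, rs', rfl⟩
    have ha : a ∈ maximalIdeal A := hmem a (by simp)
    have hareg : IsSMulRegular N a := ((isWeaklyRegular_cons_iff N a rs').1 hreg).1
    obtain ⟨x, hx, hx2, hxreg⟩ :
        ∃ x ∈ maximalIdeal A, x ∉ maximalIdeal A ^ 2 ∧ IsSMulRegular N x := by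
      by_contra hcon
      push Not at hcon
      let t : Finset (Ideal A) :=
        insert (maximalIdeal A ^ 2) (associatedPrimes.finite A N).toFinset
      have hsub : ((maximalIdeal A : Ideal A) : Set A) ⊆
          ⋃ i ∈ (t : Set (Ideal A)), ((id i : Ideal A) : Set A) := by
        intro y hy
        by_cases hy2 : y ∈ maximalIdeal A ^ 2
        · exact Set.mem_biUnion (Finset.mem_coe.2 (Finset.mem_insert_self _ _)) hy2
        · have h3 : y ∈ ({r | IsSMulRegular N r}ᶜ : Set A) := hcon y hy hy2
          rw [← biUnion_associatedPrimes_eq_compl_regular] at h3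
          obtain ⟨p, hp, hyp⟩ := Set.mem_iUnion₂.1 h3
          exact Set.mem_biUnion (Finset.mem_coe.2 (Finset.mem_insert_of_mem
            ((associatedPrimes.finite A N).mem_toFinset.2 hp))) hyp
      obtain ⟨i, hi, hle⟩ := (Ideal.subset_union_prime (maximalIdeal A ^ 2) (maximalIdeal A ^ 2)
        (by
          intro i hi h1 _
          rcases Finset.mem_insert.1 hi with rfl | hi
          · exact absurd rfl h1
          · exact ((associatedPrimes.finite A N).mem_toFinset.1 hi).isPrime)).1 hsub
      rcases Finset.mem_insert.1 hi with rfl | hi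
      · have hbot : maximalIdeal A = ⊥ := by
          apply Submodule.eq_bot_of_le_smul_of_le_jacobson_bot (maximalIdeal A) (maximalIdeal A)
            (IsNoetherian.noetherian _)
          · rw [smul_eq_mul, ← pow_two]; exact hle
          · exact (jacobson_eq_maximalIdeal ⊥ bot_ne_top).ge
        rw [hbot, Ideal.mem_bot] at ha
        rw [ha] at hareg
        exact IsSMulRegular.not_zero_iff.2 hN hareg
      · have h3 : a ∈ ⋃ p ∈ associatedPrimes A N, (p : Set A) :=
          Set.mem_biUnion ((associatedPrimes.finite A N).mem_toFinset.1 hi) (hle ha)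
        rw [biUnion_associatedPrimes_eq_compl_regular] at h3
        exact h3 hareg
    obtain ⟨rs'', hlen'', hmem'', hreg''⟩ :=
      exists_isRegular_quotSMulTop (a :: rs') hlen hmem hreg' hx hxreg
    obtain ⟨i, hi, hspan'⟩ := exists_erase_span s hspan hx hx2
    have hne : Ideal.span {x} ≠ ⊤ := by
      intro h
      rw [Ideal.span_singleton_eq_top] at h
      exact hx h
    have : Nontrivial (A ⧸ Ideal.span {x}) := Ideal.Quotient.nontrivial_iff.2 hne
    have : IsLocalRing (A ⧸ Ideal.span {x}) :=
      IsLocalRing.of_surjective' (Ideal.Quotient.mk _) Ideal.Quotient.mk_surjective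
    have : Module.Finite (A ⧸ Ideal.span {x}) (QuotSMulTop x N) :=
      Module.Finite.of_restrictScalars_finite A _ _
    have hmax : (maximalIdeal A).map (Ideal.Quotient.mk (Ideal.span {x})) =
        maximalIdeal (A ⧸ Ideal.span {x}) :=
      map_maximalIdeal_of_surjective _ Ideal.Quotient.mk_surjective
    have hfree : Module.Free (A ⧸ Ideal.span {x}) (QuotSMulTop x N) := by
      apply ih (A ⧸ Ideal.span {x}) (QuotSMulTop x N)
        ((s.erase i).image (Ideal.Quotient.mk (Ideal.span {x}))) ?_ ?_
        (rs''.map (Ideal.Quotient.mk (Ideal.span {x}))) ?_ ?_ ?_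
      · refine Finset.card_image_le.trans ?_
        rw [Finset.card_erase_of_mem hi]
        omega
      · rw [← hmax, ← hspan', Ideal.map_span, Set.image_insert_eq, Finset.coe_image]
        have h0 : Ideal.Quotient.mk (Ideal.span {x}) x = 0 :=
          Ideal.Quotient.eq_zero_iff_mem.2 (Ideal.mem_span_singleton_self x)
        rw [h0, Ideal.span_insert_zero]
      · rw [List.length_map, hlen'']
      · intro r hr
        obtain ⟨r', hr', rfl⟩ := List.mem_map.1 hr
        rw [← hmax]
        exact Ideal.mem_map_of_mem _ (hmem'' r' hr')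
      · exact (isWeaklyRegular_map_algebraMap_iff (A ⧸ Ideal.span {x}) _ rs'').2
          hreg''.toIsWeaklyRegular
    have : Module.FinitePresentation A N := Module.finitePresentation_of_finite A N
    exact (Module.free_quotSMulTop_iff_free A N
      (by rw [jacobson_eq_maximalIdeal ⊥ bot_ne_top]; exact hx) hxreg).1 hfree

end Fermat.Agent.S57Lib
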