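import Mathlib

set_option autoImplicit false

namespace Fermat.Agent.S57Lib

open MvPowerSeries RingTheory.Sequence IsLocalRing

variable {σ : Type*} {R : Type*} [CommRing R]

/-- membership in the ideal generated by a finite set of variables, by coefficients -/
theorem mem_span_X_image_iff (s : Finset σ) (f : MvPowerSeries σ R) :
    f ∈ Ideal.span ((fun i => (X i : MvPowerSeries σ R)) '' (s : Set σ)) ↔
      ∀ m : σ →₀ ℕ, (∀ j ∈ s, m j = 0) → coeff m f = 0 := by
  classical
  induction s using Finset.induction_on generalizing f with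
  | empty =>
    simp only [Finset.coe_empty, Set.image_empty, Ideal.span_empty, Ideal.mem_bot,
      Finset.notMem_empty, false_imp_iff, implies_true, forall_true_left]
    constructor
    · rintro rfl m; simp
    · intro h; ext m; simpa using h m
  | insert a s ha ih =>
    rw [Finset.coe_insert, Set.image_insert_eq, Ideal.mem_span_insert]
    constructor
    · rintro ⟨g, z, hz, rfl⟩ m hm
      rw [map_add, (ih z).1 hz m (fun j hj => hm j (Finset.mem_insert_of_mem hj)), add_zero]
      exact (X_dvd_iff (s := a)).1 (Dvd.intro_left g rfl) m (hm a (Finset.mem_insert_self a s))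
    · intro h
      let z : MvPowerSeries σ R := fun m => if m a = 0 then coeff m f else 0
      have hzc : ∀ m, coeff m z = if m a = 0 then coeff m f else 0 := fun m => rfl
      have hz : z ∈ Ideal.span ((fun i => (X i : MvPowerSeries σ R)) '' (s : Set σ)) := by
        rw [ih]
        intro m hm
        rw [hzc]
        split_ifs with h0
        · apply h
          intro j hj
          rcases Finset.mem_insert.1 hj with rfl | hj
          · exact h0
          · exact hm j hj
        · rfl
      have hd : (X a : MvPowerSeries σ R) ∣ f - z := by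
        rw [X_dvd_iff]
        intro m hm
        rw [map_sub, hzc, if_pos hm, sub_self]
      obtain ⟨g, hg⟩ := hd
      refine ⟨g, z, hz, ?_⟩
      rw [mul_comm, ← hg]; ring

theorem mem_span_range_X_iff [Fintype σ] (f : MvPowerSeries σ R) :
    f ∈ Ideal.span (Set.range (fun i => (X i : MvPowerSeries σ R))) ↔ constantCoeff f = 0 := by
  have := mem_span_X_image_iff (Finset.univ : Finset σ) f
  rw [Finset.coe_univ, Set.image_univ] at this
  rw [this]
  constructor
  · intro h
    rw [← coeff_zero_eq_constantCoeff_apply]
    exact h 0 (fun _ _ => rfl)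
  · intro h m hm
    have : m = 0 := by ext j; exact hm j (Finset.mem_univ j)
    rw [this, coeff_zero_eq_constantCoeff_apply, h]


theorem ofList_map_X_smul_top (l : List σ) [DecidableEq σ] :
    (Ideal.ofList (l.map (fun i => (X i : MvPowerSeries σ R))) • ⊤ :
      Submodule (MvPowerSeries σ R) (MvPowerSeries σ R)) =
    Ideal.span ((fun i => (X i : MvPowerSeries σ R)) '' (l.toFinset : Set σ)) := by
  rw [smul_eq_mul, Ideal.mul_top, Ideal.ofList]
  congr 1
  ext x
  simp

theorem isWeaklyRegular_map_X (l : List σ) (hl : l.Nodup) :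
    IsWeaklyRegular (MvPowerSeries σ R) (l.map (fun i => (X i : MvPowerSeries σ R))) := by
  classical
  induction l using List.reverseRecOn with
  | nil => simp
  | append_singleton l a ih =>
    rw [List.map_append, isWeaklyRegular_append_iff]
    have hl' := List.nodup_append.1 hl
    refine ⟨ih hl'.1, ?_⟩
    rw [List.map_singleton, isWeaklyRegular_singleton_iff,
      isSMulRegular_quotient_iff_mem_of_smul_mem, ofList_map_X_smul_top]
    intro f hf
    rw [mem_span_X_image_iff] at hf ⊢
    intro m hm
    have h1 := hf (Finsupp.single a 1 + m) (by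
      intro j hj
      have hja : a ≠ j := by
        rintro rfl
        exact hl'.2.2 a (List.mem_toFinset.1 hj) a (by simp) rfl
      simp [hm j hj, hja])
    rw [smul_eq_mul, X, coeff_add_monomial_mul, one_mul] at h1
    exact h1

theorem isWeaklyRegular_X_append_C [IsDomain R] (r : ℕ) (ϖ : R) (hϖ : ϖ ≠ 0) :
    IsWeaklyRegular (MvPowerSeries (Fin r) R)
      ((List.finRange r).map (fun i => (X i : MvPowerSeries (Fin r) R)) ++ [C ϖ]) := by
  classical
  rw [isWeaklyRegular_append_iff]
  refine ⟨isWeaklyRegular_map_X _ (List.nodup_finRange r), ?_⟩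
  rw [isWeaklyRegular_singleton_iff,
      isSMulRegular_quotient_iff_mem_of_smul_mem, ofList_map_X_smul_top]
  have : ((List.finRange r).toFinset : Set (Fin r)) = Set.univ := by ext; simp
  rw [this, Set.image_univ]
  intro f hf
  rw [mem_span_range_X_iff] at hf ⊢
  rw [smul_eq_mul, map_mul, constantCoeff_C] at hf
  exact (mul_eq_zero.1 hf).resolve_left hϖ

theorem maximalIdeal_mvPowerSeries_eq_span [IsLocalRing R] [Fintype σ] (ϖ : R)
    (hϖ : maximalIdeal R = Ideal.span {ϖ}) :
    maximalIdeal (MvPowerSeries σ R) =
      Ideal.span (insert (C ϖ) (Set.range (fun i => (X i : MvPowerSeries σ R)))) := by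
  apply le_antisymm
  · intro f hf
    rw [mem_maximalIdeal, mem_nonunits_iff, isUnit_iff_constantCoeff, ← mem_nonunits_iff,
      ← mem_maximalIdeal, hϖ, Ideal.mem_span_singleton] at hf
    obtain ⟨u, hu⟩ := hf
    rw [Ideal.mem_span_insert]
    refine ⟨C u, f - C (constantCoeff f), ?_, ?_⟩
    · rw [mem_span_range_X_iff]; simp
    · rw [hu, map_mul]; ring
  · rw [Ideal.span_le]
    intro f hf
    rw [SetLike.mem_coe, mem_maximalIdeal, mem_nonunits_iff, isUnit_iff_constantCoeff,
      ← mem_nonunits_iff, ← mem_maximalIdeal]
    rcases hf with rfl | ⟨i, rfl⟩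
    · rw [constantCoeff_C, hϖ]; exact Ideal.mem_span_singleton_self ϖ
    · simp


end Fermat.Agent.S57Lib
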